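import Fermat.Agent.JordanZassenhaus.Main
import Mathlib.RingTheory.AdjoinRoot
import Mathlib.RingTheory.Artinian.Module
import Mathlib.LinearAlgebra.Matrix.GeneralLinearGroup.Defs
import Mathlib.LinearAlgebra.Matrix.Charpoly.Coeff

/-!
# Integral matrices killed by a squarefree polynomial

By the theorem of Jordan and Zassenhaus for the order `ℤ[X]/(f)` of the semisimple algebra
`ℚ[X]/(f)`, they fall into finitely many classes under conjugation by `GL n ℤ`.
-/

set_option autoImplicit false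
set_option linter.style.haveILetI false

noncomputable section

open Module Matrix Polynomial

namespace FA.UnitsOrders

open FA.JordanZassenhaus

variable {f : ℤ[X]} {n : ℕ}

local notation "fQ" f:max => Polynomial.map (Int.castRingHom ℚ) f

/-- The algebra of a polynomial. -/
abbrev RatAlg (f : ℤ[X]) : Type := AdjoinRoot (Polynomial.map (Int.castRingHom ℚ) f)

/-- The matrices killed by `f`. -/
abbrev Killed (f : ℤ[X]) (n : ℕ) : Type :=
  {M : Matrix (Fin n) (Fin n) ℤ // aeval M f = 0}

theorem aeval_map_eq_zero (M : Killed f n) :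
    aeval (Matrix.toLinAlgEquiv' (M.1.map (Int.castRingHom ℚ)))
      (Polynomial.map (Int.castRingHom ℚ) f) = 0 := by
  rw [← algebraMap_int_eq, aeval_map_algebraMap]
  have h : aeval (M.1.map (algebraMap ℤ ℚ)) f = 0 := by
    have := aeval_algHom_apply (Algebra.ofId ℤ ℚ).mapMatrix M.1 f
    rwa [M.2, map_zero] at this
  have h2 := aeval_algHom_apply
    ((Matrix.toLinAlgEquiv' (R := ℚ) (n := Fin n)).toAlgHom.restrictScalars ℤ)
    (M.1.map (algebraMap ℤ ℚ)) f
  rwa [h, map_zero] at h2

/-- The action of the algebra. -/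
def action (M : Killed f n) : RatAlg f →ₐ[ℚ] Module.End ℚ (Fin n → ℚ) :=
  Ideal.Quotient.liftₐ _ (aeval (Matrix.toLinAlgEquiv' (M.1.map (Int.castRingHom ℚ))))
    fun a ha => by
      obtain ⟨c, rfl⟩ := Ideal.mem_span_singleton'.1 ha
      rw [map_mul, aeval_map_eq_zero, mul_zero]

theorem action_root (M : Killed f n) :
    action M (AdjoinRoot.root _) = Matrix.toLinAlgEquiv' (M.1.map (Int.castRingHom ℚ)) := by
  show aeval _ (X : ℚ[X]) = _
  rw [aeval_X]

/-- `ℚ ^ n` with the action of a matrix. -/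
def MatModule (_ : Killed f n) : Type := Fin n → ℚ

instance (M : Killed f n) : AddCommGroup (MatModule M) :=
  inferInstanceAs (AddCommGroup (Fin n → ℚ))

instance (M : Killed f n) : Module ℚ (MatModule M) :=
  inferInstanceAs (Module ℚ (Fin n → ℚ))

instance (M : Killed f n) : FiniteDimensional ℚ (MatModule M) :=
  inferInstanceAs (FiniteDimensional ℚ (Fin n → ℚ))

instance (M : Killed f n) : Module (RatAlg f) (MatModule M) :=
  Module.compHom (Fin n → ℚ) (action M).toRingHom

instance (M : Killed f n) : IsScalarTower ℚ (RatAlg f) (MatModule M) :=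
  ⟨fun q a v => LinearMap.congr_fun ((action M).toLinearMap.map_smul q a) v⟩

/-- The integral vectors. -/
def intVecs (M : Killed f n) : (Fin n → ℤ) →ₗ[ℤ] MatModule M :=
  ((Int.castAddHom ℚ).compLeft (Fin n)).toIntLinearMap

theorem intVecs_injective (M : Killed f n) : Function.Injective (intVecs M) :=
  fun _ _ h => funext fun i => Int.cast_injective (congrFun h i : (_ : ℚ) = _)

theorem root_smul_intVecs (M : Killed f n) (c : Fin n → ℤ) :
    AdjoinRoot.root (fQ f) • intVecs M c = intVecs M (M.1 *ᵥ c) := by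
  show action M (AdjoinRoot.root _) (fun i => (c i : ℚ)) = fun i => ((M.1 *ᵥ c) i : ℚ)
  rw [action_root]
  funext i
  exact (RingHom.map_mulVec (Int.castRingHom ℚ) M.1 c i).symm

theorem root_pow_smul_intVecs (M : Killed f n) (k : ℕ) (c : Fin n → ℤ) :
    AdjoinRoot.root (fQ f) ^ k • intVecs M c = intVecs M ((M.1 ^ k) *ᵥ c) := by
  induction k generalizing c with
  | zero => simp
  | succ k ih => rw [pow_succ, mul_smul, root_smul_intVecs, ih, pow_succ, Matrix.mulVec_mulVec]

/-- Clearing denominators in coordinates. -/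
theorem exists_nsmul_int {ι : Type*} [Fintype ι] (u : ι → ℚ) :
    ∃ m : ℕ, m ≠ 0 ∧ ∀ i, ∃ z : ℤ, (m : ℚ) * u i = z := by
  classical
  refine ⟨∏ i, (u i).den, Finset.prod_ne_zero_iff.2 fun i _ => (u i).den_nz,
    fun i => ⟨(∏ j ∈ Finset.univ.erase i, (u j).den : ℕ) * (u i).num, ?_⟩⟩
  rw [← Finset.mul_prod_erase _ _ (Finset.mem_univ i)]
  push_cast
  linear_combination (∏ j ∈ Finset.univ.erase i, ((u j).den : ℚ)) * Rat.mul_den_eq_num (u i)

/-- **Finitely many classes of integral matrices killed by a squarefree polynomial.** -/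
theorem finite_classes (hf : Squarefree (fQ f)) (n : ℕ) :
    ∃ F : Finset (Matrix (Fin n) (Fin n) ℤ), ∀ M : Matrix (Fin n) (Fin n) ℤ, aeval M f = 0 →
      ∃ N ∈ F, ∃ P : GL (Fin n) ℤ, N = P * M * (P⁻¹ : GL (Fin n) ℤ) := by
  classical
  set g := fQ f
  have hg0 : g ≠ 0 := hf.ne_zero
  let pb := AdjoinRoot.powerBasis hg0
  haveI : FiniteDimensional ℚ (RatAlg f) := pb.finite
  haveI : IsReduced (RatAlg f) := ⟨fun x ⟨k, hk⟩ => by
    obtain ⟨p, rfl⟩ := AdjoinRoot.mk_surjective x
    rw [← map_pow, AdjoinRoot.mk_eq_zero] at hk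
    exact AdjoinRoot.mk_eq_zero.2 (hf.isRadical _ _ hk)⟩
  haveI : IsArtinianRing (RatAlg f) := IsArtinianRing.of_finite ℚ (RatAlg f)
  haveI : IsSemisimpleRing (RatAlg f) := IsArtinianRing.isSemisimpleRing_of_isReduced _
  set R : Submodule ℤ (RatAlg f) := Submodule.span ℤ (Set.range pb.basis) with hRdef
  have hR : IsFull R := ⟨Submodule.fg_span (Set.finite_range _), fun v => by
    obtain ⟨m, hm, h⟩ := exists_nsmul_int fun i => pb.basis.repr v i
    choose z hz using h
    refine ⟨m, hm, ?_⟩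
    have e : m • v = ∑ i, z i • pb.basis i := by
      conv_lhs => rw [← pb.basis.sum_repr v, Finset.smul_sum]
      refine Finset.sum_congr rfl fun i _ => ?_
      rw [← Nat.cast_smul_eq_nsmul ℚ, smul_smul, hz, Int.cast_smul_eq_zsmul]
    rw [e]
    exact sum_mem fun i _ => Submodule.smul_mem _ _ (Submodule.subset_span ⟨i, rfl⟩)⟩
  obtain ⟨F, hFfin, hF⟩ := exists_finite_lattices.{0} hR n
  have hkey : ∀ M : Killed f n, ∃ SL ∈ F, ∃ e : MatModule M ≃ₗ[RatAlg f] SL.1,
      (LinearMap.range (intVecs M)).map e.toAddEquiv.toIntLinearEquiv.toLinearMap = SL.2 := by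
    intro M
    have hd : finrank ℚ (MatModule M) ≤ n := le_of_eq (Module.finrank_fin_fun ℚ)
    refine hF (MatModule M) hd _
      ⟨(LinearMap.range_eq_map (intVecs M)) ▸ Module.Finite.fg_top.map _, fun v => ?_⟩
      fun r hr x hx => ?_
    · let u : Fin n → ℚ := v
      obtain ⟨m, hm, h⟩ := exists_nsmul_int u
      choose z hz using h
      exact ⟨m, hm, z, funext fun i => ((nsmul_eq_mul m (u i)).trans (hz i)).symm⟩
    · obtain ⟨c, rfl⟩ := hx
      rw [hRdef] at hr
      induction hr using Submodule.span_induction with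
      | mem y hy =>
        obtain ⟨i, rfl⟩ := hy
        rw [pb.basis_eq_pow, AdjoinRoot.powerBasis_gen]
        exact ⟨_, (root_pow_smul_intVecs M _ c).symm⟩
      | zero => simp
      | add y z _ _ hy hz => rw [add_smul]; exact add_mem hy hz
      | smul a y _ hy => rw [smul_assoc]; exact Submodule.smul_mem _ a hy
  choose SL hSL e he using hkey
  have hfin : (Set.range SL).Finite := hFfin.subset (Set.range_subset_iff.2 hSL)
  choose rep hrep using fun y : Set.range SL => y.2
  haveI := hfin.fintype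
  refine ⟨Finset.univ.image fun y => (rep y).1, fun M hM => ?_⟩
  set A : Killed f n := ⟨M, hM⟩
  set B := rep ⟨SL A, A, rfl⟩
  refine ⟨B.1, Finset.mem_image_of_mem _ (Finset.mem_univ _), ?_⟩
  have hiso : ∀ a b : Killed f n, SL a = SL b →
      ∃ h : MatModule a ≃ₗ[RatAlg f] MatModule b,
        (∀ c, ∃ c', h (intVecs a c) = intVecs b c') ∧
          ∀ c, ∃ c', h.symm (intVecs b c) = intVecs a c' := by
    intro a b hab
    have hea := he a
    have heb := he b
    revert hea heb
    generalize e a = ea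
    generalize e b = eb
    revert ea eb
    rw [hab]
    intro ea eb hea heb
    refine ⟨ea.trans eb.symm, fun c => ?_, fun c => ?_⟩
    · have hmem : ea (intVecs a c) ∈ (SL b).2 := hea ▸ ⟨_, ⟨c, rfl⟩, rfl⟩
      rw [← heb] at hmem
      obtain ⟨_, ⟨c', rfl⟩, hc'⟩ := hmem
      exact ⟨c', eb.symm_apply_eq.2 hc'.symm⟩
    · have hmem : eb (intVecs b c) ∈ (SL b).2 := heb ▸ ⟨_, ⟨c, rfl⟩, rfl⟩
      rw [← hea] at hmem
      obtain ⟨_, ⟨c', rfl⟩, hc'⟩ := hmem
      exact ⟨c', ea.symm_apply_eq.2 hc'.symm⟩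
  -- the matrix of a map preserving the integral vectors
  have hmat : ∀ (a b : Killed f n) (h : MatModule a →ₗ[RatAlg f] MatModule b),
      (∀ c, ∃ c', h (intVecs a c) = intVecs b c') →
      ∃ P : Matrix (Fin n) (Fin n) ℤ, ∀ c, h (intVecs a c) = intVecs b (P *ᵥ c) := by
    intro a b h hh
    choose t ht using hh
    let T : (Fin n → ℤ) →ₗ[ℤ] (Fin n → ℤ) :=
      { toFun := t
        map_add' := fun c d => intVecs_injective b (by
          rw [← ht, map_add, map_add, map_add, ht, ht])
        map_smul' := fun r c => intVecs_injective b (by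
          rw [← ht, map_smul, map_zsmul, RingHom.id_apply, map_smul, ht]) }
    exact ⟨LinearMap.toMatrix' T, fun c => by rw [LinearMap.toMatrix'_mulVec]; exact ht c⟩
  obtain ⟨h, hh, hh'⟩ := hiso A B (hrep ⟨SL A, A, rfl⟩).symm
  obtain ⟨P, hP'⟩ := hmat A B h.toLinearMap hh
  obtain ⟨Q, hQ'⟩ := hmat B A h.symm.toLinearMap hh'
  have hP : ∀ c, h (intVecs A c) = intVecs B (P *ᵥ c) := hP'
  have hQ : ∀ c, h.symm (intVecs B c) = intVecs A (Q *ᵥ c) := hQ'
  have hQP : Q * P = 1 := Matrix.ext_of_mulVec_single fun j => intVecs_injective A (by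
    rw [← Matrix.mulVec_mulVec, ← hQ, ← hP, h.symm_apply_apply, Matrix.one_mulVec])
  have hPQ : P * Q = 1 := mul_eq_one_comm.1 hQP
  refine ⟨⟨P, Q, hPQ, hQP⟩, ?_⟩
  show B.1 = P * M * Q
  have hcomm : B.1 * P = P * M := Matrix.ext_of_mulVec_single fun j => intVecs_injective B (by
    rw [← Matrix.mulVec_mulVec, ← root_smul_intVecs, ← hP, ← h.map_smul, root_smul_intVecs, hP,
      Matrix.mulVec_mulVec])
  rw [← hcomm, Matrix.mul_assoc, hPQ, Matrix.mul_one]

end FA.UnitsOrders

end
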