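import Fermat.Agent.Root.SummaryMinkowskiHlawka
import Mathlib.LinearAlgebra.Matrix.ToLin
import Mathlib.LinearAlgebra.Matrix.AbsoluteValue
import Mathlib.LinearAlgebra.Matrix.NonsingularInverse
import Mathlib.RingTheory.Localization.Module
import Mathlib.LinearAlgebra.FreeModule.PID
import Mathlib.Algebra.Algebra.Rat
import Mathlib.Tactic

/-!
# The units of an order in a division algebra

In the left regular representation with respect to a basis of the order, every real element of
determinant `±1` becomes bounded after right multiplication by a unit (Hey): Minkowski's theorem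
gives an element of the order that makes it bounded, and these fall into finitely many classes.
-/

set_option autoImplicit false
set_option linter.style.haveILetI false

noncomputable section

open Module Matrix

namespace FA.UnitsOrders

variable {D : Type*} [Ring D] [Algebra ℚ D] {n : ℕ}

/-- The real left regular representation. -/
def realRep (b : Basis (Fin n) ℚ D) : D →+* Matrix (Fin n) (Fin n) ℝ :=
  ((algebraMap ℚ ℝ).mapMatrix).comp (Algebra.leftMulMatrix b).toRingHom

theorem realRep_apply (b : Basis (Fin n) ℚ D) (x : D) :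
    realRep b x = (Algebra.leftMulMatrix b x).map (fun q : ℚ => (q : ℝ)) := rfl

theorem det_realRep (b : Basis (Fin n) ℚ D) (x : D) :
    (realRep b x).det = ((Algebra.leftMulMatrix b x).det : ℝ) :=
  ((algebraMap ℚ ℝ).map_det _).symm

/-- The real algebra. -/
def realAlg (b : Basis (Fin n) ℚ D) : Subalgebra ℝ (Matrix (Fin n) (Fin n) ℝ) :=
  Algebra.adjoin ℝ (Set.range (realRep b))

theorem toSubmodule_realAlg (b : Basis (Fin n) ℚ D) :
    (realAlg b).toSubmodule = Submodule.span ℝ (Set.range (realRep b)) := by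
  rw [realAlg, Algebra.adjoin_eq_span,
    show Set.range (realRep b) = (MonoidHom.mrange (realRep b).toMonoidHom : Set _) from rfl,
    Submonoid.closure_eq]

theorem realRep_mem (b : Basis (Fin n) ℚ D) (x : D) : realRep b x ∈ realAlg b :=
  Algebra.subset_adjoin ⟨x, rfl⟩

theorem isClosed_realAlg (b : Basis (Fin n) ℚ D) :
    IsClosed (realAlg b : Set (Matrix (Fin n) (Fin n) ℝ)) :=
  (realAlg b).toSubmodule.closed_of_finiteDimensional

/-- The coordinates of one. -/
def oneVec (b : Basis (Fin n) ℚ D) : Fin n → ℝ := fun i => (b.repr 1 i : ℝ)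

theorem realRep_mulVec (b : Basis (Fin n) ℚ D) (x y : D) :
    realRep b x *ᵥ (fun i => (b.repr y i : ℝ)) = fun i => (b.repr (x * y) i : ℝ) := by
  funext i
  show ((Algebra.leftMulMatrix b x).map (algebraMap ℚ ℝ) *ᵥ (algebraMap ℚ ℝ ∘ ⇑(b.repr y))) i = _
  rw [← RingHom.map_mulVec, Algebra.leftMulMatrix_mulVec_repr]
  rfl

theorem realRep_eq_sum (b : Basis (Fin n) ℚ D) (x : D) :
    realRep b x = ∑ i, (b.repr x i : ℝ) • realRep b (b i) := by
  conv_lhs => rw [← b.sum_repr x, map_sum]
  refine Finset.sum_congr rfl fun i _ => ?_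
  ext j k
  simp [realRep_apply, Matrix.map_apply]

/-- An element of the real algebra is given by its value at one. -/
theorem eq_sum_of_mem (b : Basis (Fin n) ℚ D) {w : Matrix (Fin n) (Fin n) ℝ} (hw : w ∈ realAlg b) :
    w = ∑ i, (w *ᵥ oneVec b) i • realRep b (b i) := by
  change w ∈ (realAlg b).toSubmodule at hw
  rw [toSubmodule_realAlg] at hw
  induction hw using Submodule.span_induction with
  | mem _ h =>
    obtain ⟨x, rfl⟩ := h
    unfold oneVec
    rw [realRep_mulVec, mul_one]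
    exact realRep_eq_sum b x
  | zero => simp
  | add u v _ _ hu hv =>
    simp only [Matrix.add_mulVec, Pi.add_apply, add_smul, Finset.sum_add_distrib]
    rw [← hu, ← hv]
  | smul c u _ hu =>
    simp only [Matrix.smul_mulVec, Pi.smul_apply, smul_eq_mul, mul_smul]
    rw [← Finset.smul_sum, ← hu]

/-- The order is given by integral coordinates. -/
def IsIntBasis (O : Subring D) (b : Basis (Fin n) ℚ D) : Prop :=
  ∀ x, x ∈ O ↔ ∀ i, ∃ z : ℤ, b.repr x i = z

/-- **A basis of an order.** -/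
theorem exists_isIntBasis [IsDomain D] {O : Subring D} (hfg : O.toAddSubgroup.FG)
    (hfull : ∀ x : D, ∃ m : ℕ, m ≠ 0 ∧ m • x ∈ O) :
    ∃ (n : ℕ) (b : Basis (Fin n) ℚ D), IsIntBasis O b := by
  classical
  set L : Submodule ℤ D := AddSubgroup.toIntSubmodule O.toAddSubgroup
  haveI : Module.Finite ℤ L := Module.Finite.iff_fg.2 ((Submodule.fg_iff_addSubgroup_fg L).2 hfg)
  haveI : CharZero D := charZero_of_injective_algebraMap (algebraMap ℚ D).injective
  haveI : IsAddTorsionFree D := inferInstance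
  haveI : Module.IsTorsionFree ℤ D := inferInstance
  obtain ⟨n, s⟩ := Module.basisOfFiniteTypeTorsionFree' (R := ℤ) (M := L)
  let v : Fin n → D := fun i => (s i : D)
  have hv : LinearIndependent ℤ v := s.linearIndependent.map' L.subtype (Submodule.ker_subtype L)
  rw [LinearIndependent.iff_fractionRing ℤ ℚ] at hv
  have hsum : ∀ y : L, (y : D) = ∑ i, ((s.repr y i : ℤ) : ℚ) • v i := fun y => by
    conv_lhs => rw [← s.sum_repr y]
    rw [Submodule.coe_sum]
    exact Finset.sum_congr rfl fun i _ => by rw [Submodule.coe_smul, Int.cast_smul_eq_zsmul]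
  have hspan : ⊤ ≤ Submodule.span ℚ (Set.range v) := fun x _ => by
    obtain ⟨m, hm, hmx⟩ := hfull x
    have h : m • x ∈ Submodule.span ℚ (Set.range v) := by
      rw [show m • x = _ from hsum ⟨m • x, hmx⟩]
      exact sum_mem fun i _ => Submodule.smul_mem _ _ (Submodule.subset_span ⟨i, rfl⟩)
    rw [← Nat.cast_smul_eq_nsmul ℚ] at h
    exact (Submodule.smul_mem_iff _ (Nat.cast_ne_zero.2 hm)).1 h
  refine ⟨n, Basis.mk hv hspan, fun x => ⟨fun hx i => ?_, fun hx => ?_⟩⟩
  · refine ⟨s.repr ⟨x, hx⟩ i, ?_⟩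
    have e : x = ∑ j, ((s.repr ⟨x, hx⟩ j : ℤ) : ℚ) • Basis.mk hv hspan j := by
      simp only [Basis.mk_apply]
      exact hsum ⟨x, hx⟩
    conv_lhs => rw [e]
    rw [Basis.repr_sum_self]
  · choose z hz using hx
    rw [← (Basis.mk hv hspan).sum_repr x]
    refine sum_mem fun i _ => ?_
    rw [hz, Basis.mk_apply, Int.cast_smul_eq_zsmul]
    exact zsmul_mem (s i).2 _

variable {O : Subring D} {b : Basis (Fin n) ℚ D}

theorem IsIntBasis.mem (hb : IsIntBasis O b) (i : Fin n) : b i ∈ O :=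
  (hb _).2 fun j => by
    rcases eq_or_ne i j with rfl | h
    · exact ⟨1, by simp⟩
    · exact ⟨0, by simp [h]⟩

/-- The matrix of an element of the order is integral. -/
theorem IsIntBasis.exists_int (hb : IsIntBasis O b) {x : D} (hx : x ∈ O) :
    ∃ A : Matrix (Fin n) (Fin n) ℤ, A.map (Int.castRingHom ℚ) = Algebra.leftMulMatrix b x := by
  choose z hz using fun i j => (hb _).1 (mul_mem hx (hb.mem j)) i
  exact ⟨Matrix.of z, Matrix.ext fun i j => by
    simp [Algebra.leftMulMatrix_eq_repr_mul, hz]⟩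

/-- A bound on the entries. -/
def Small (R : ℝ) (A : Matrix (Fin n) (Fin n) ℝ) : Prop := ∀ i j, |A i j| ≤ R

theorem Small.mono {R R' : ℝ} {A : Matrix (Fin n) (Fin n) ℝ} (h : Small R A) (hR : R ≤ R') :
    Small R' A := fun i j => (h i j).trans hR

theorem Small.mul {R R' : ℝ} {A A' : Matrix (Fin n) (Fin n) ℝ} (h : Small R A)
    (h' : Small R' A') : Small (n * (R * R')) (A * A') := fun i j => by
  rw [Matrix.mul_apply]
  refine (Finset.abs_sum_le_sum_abs _ _).trans
    ((Finset.sum_le_card_nsmul _ _ (R * R') fun k _ => ?_).trans_eq (by simp))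
  rw [abs_mul]
  exact mul_le_mul (h i k) (h' k j) (abs_nonneg _) ((abs_nonneg _).trans (h i k))

theorem Small.abs_det_le {R : ℝ} {A : Matrix (Fin n) (Fin n) ℝ} (h : Small R A) :
    |A.det| ≤ n.factorial * R ^ n := by
  have := Matrix.det_le (abv := AbsoluteValue.abs) h
  simpa [AbsoluteValue.abs_apply] using this

theorem Small.inv {R : ℝ} {A : Matrix (Fin n) (Fin n) ℝ} (h : Small R A) (hR : 1 ≤ R)
    (hA : |A.det| = 1) : Small (n.factorial * R ^ n) A⁻¹ := fun i j => by
  rw [Matrix.inv_def, Matrix.smul_apply, smul_eq_mul, abs_mul, Ring.inverse_eq_inv', abs_inv, hA,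
    inv_one, one_mul, Matrix.adjugate_apply]
  refine Small.abs_det_le fun k l => ?_
  rw [Matrix.updateRow_apply]
  split_ifs
  · rw [Pi.single_apply]
    split_ifs <;> simp <;> linarith
  · exact h k l

variable {D : Type*} [DivisionRing D] [Algebra ℚ D] {O : Subring D} {b : Basis (Fin n) ℚ D}

theorem det_ne_zero (b : Basis (Fin n) ℚ D) {x : D} (hx : x ≠ 0) : (realRep b x).det ≠ 0 :=
  left_ne_zero_of_mul (b := (realRep b x⁻¹).det) (by
    rw [← Matrix.det_mul, ← map_mul, mul_inv_cancel₀ hx, map_one, Matrix.det_one]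
    exact one_ne_zero)

/-- An element of the order of determinant dividing `L` divides `L`. -/
theorem IsIntBasis.nsmul_inv_mem (hb : IsIntBasis O b) {x : D} (hx0 : x ≠ 0)
    {A : Matrix (Fin n) (Fin n) ℤ} (hA : A.map (Int.castRingHom ℚ) = Algebra.leftMulMatrix b x)
    {L : ℕ} (hL : A.det ∣ (L : ℤ)) : L • x⁻¹ ∈ O := by
  obtain ⟨m, hm⟩ := hL
  have h1 : Algebra.leftMulMatrix b x * Algebra.leftMulMatrix b (L • x⁻¹) =
      Algebra.leftMulMatrix b x * (m • A.adjugate).map (Int.castRingHom ℚ) := by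
    rw [← map_mul, mul_smul_comm, mul_inv_cancel₀ hx0, map_nsmul, map_one, ← hA,
      ← Matrix.map_mul, Matrix.mul_smul, Matrix.mul_adjugate, smul_smul, mul_comm, ← hm]
    ext i j
    simp [Matrix.one_apply, Matrix.natCast_apply]
  have hu : IsUnit (Algebra.leftMulMatrix b x) :=
    (isUnit_iff_ne_zero.2 hx0).map (Algebra.leftMulMatrix b)
  have h2 := hu.mul_left_cancel h1
  refine (hb _).2 fun i => ⟨((m • A.adjugate) *ᵥ fun j => Classical.choose ((hb 1).1 (one_mem O) j))
    i, ?_⟩
  have h3 : (⇑(b.repr 1) : Fin n → ℚ) =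
      Int.castRingHom ℚ ∘ fun j => Classical.choose ((hb 1).1 (one_mem O) j) :=
    funext fun j => Classical.choose_spec ((hb 1).1 (one_mem O) j)
  have h4 := Algebra.leftMulMatrix_mulVec_repr b (L • x⁻¹) 1
  rw [mul_one, h2, h3] at h4
  rw [← h4, ← RingHom.map_mulVec]
  rfl

omit [Algebra ℚ D] in
/-- Congruent elements of the order differ by a unit. -/
theorem exists_unit_mul {L : ℕ} {x y z : D} (hz : z ∈ O) (hxy : x - y = L • z)
    (hx0 : x ≠ 0) (hy0 : y ≠ 0) (hx : L • x⁻¹ ∈ O) (hy : L • y⁻¹ ∈ O) :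
    ∃ u : Oˣ, ((u : O) : D) * y = x := by
  have h1 : x * y⁻¹ ∈ O := by
    rw [show x = y + L • z from eq_add_of_sub_eq' hxy, add_mul, mul_inv_cancel₀ hy0,
      smul_mul_assoc, ← mul_smul_comm]
    exact add_mem (one_mem O) (mul_mem hz hy)
  have h2 : y * x⁻¹ ∈ O := by
    rw [show y = x - L • z by rw [← hxy, sub_sub_cancel], sub_mul, mul_inv_cancel₀ hx0,
      smul_mul_assoc, ← mul_smul_comm]
    exact sub_mem (one_mem O) (mul_mem hz hx)
  refine ⟨⟨⟨_, h1⟩, ⟨_, h2⟩, Subtype.ext ?_, Subtype.ext ?_⟩, ?_⟩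
  · show x * y⁻¹ * (y * x⁻¹) = 1
    rw [mul_assoc, inv_mul_cancel_left₀ hy0, mul_inv_cancel₀ hx0]
  · show y * x⁻¹ * (x * y⁻¹) = 1
    rw [mul_assoc, inv_mul_cancel_left₀ hx0, mul_inv_cancel₀ hy0]
  · show x * y⁻¹ * y = x
    rw [mul_assoc, inv_mul_cancel₀ hy0, mul_one]

/-- The matrix of a unit. -/
def unitRep (b : Basis (Fin n) ℚ D) (u : Oˣ) : Matrix (Fin n) (Fin n) ℝ :=
  realRep b ((u : O) : D)

theorem unitRep_mul (b : Basis (Fin n) ℚ D) (u v : Oˣ) :
    unitRep b (u * v) = unitRep b u * unitRep b v := by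
  simp [unitRep]

theorem unitRep_one (b : Basis (Fin n) ℚ D) : unitRep b (1 : Oˣ) = 1 := by
  simp [unitRep]

theorem unitRep_mem (b : Basis (Fin n) ℚ D) (u : Oˣ) : unitRep b u ∈ realAlg b :=
  realRep_mem b _

theorem IsIntBasis.abs_det_unit (hb : IsIntBasis O b) (u : Oˣ) : |(unitRep b u).det| = 1 := by
  obtain ⟨A, hA⟩ := hb.exists_int (x := ((u : O) : D)) (u : O).2
  obtain ⟨A', hA'⟩ := hb.exists_int (x := ((↑u⁻¹ : O) : D)) (↑u⁻¹ : O).2
  have h1 : A * A' = 1 := Matrix.map_injective (Int.castRingHom ℚ).injective_int (by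
    show (A * A').map (Int.castRingHom ℚ) = (1 : Matrix _ _ ℤ).map (Int.castRingHom ℚ)
    rw [Matrix.map_mul, hA, hA', ← map_mul, ← Subring.coe_mul, Units.mul_inv, Subring.coe_one,
      map_one, Matrix.map_one _ (map_zero _) (map_one _)])
  have h2 := congrArg Matrix.det h1
  rw [Matrix.det_mul, Matrix.det_one] at h2
  have h3 : (unitRep b u).det = (A.det : ℝ) := by
    rw [unitRep, det_realRep, ← hA, ← RingHom.mapMatrix_apply, ← RingHom.map_det]
    simp
  rcases Int.eq_one_or_neg_one_of_mul_eq_one h2 with h | h <;> simp [h3, h]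

/-- **Hey's theorem**: up to a unit an element of determinant `±1` is bounded. -/
theorem exists_unit_small (hb : IsIntBasis O b) :
    ∃ R : ℝ, 1 ≤ R ∧ ∀ g ∈ realAlg b, |g.det| = 1 → ∃ u : Oˣ, Small R (g * unitRep b u) := by
  classical
  set R₁ : ℝ := ∑ i, ∑ j, ∑ k, 2 * |realRep b (b i) j k|
  set M : ℕ := ⌊(n.factorial : ℝ) * R₁ ^ n⌋₊
  set L : ℕ := M.factorial
  haveI : NeZero L := ⟨M.factorial_ne_zero⟩
  let code : D → Fin n → ZMod L := fun x i => ((b.repr x i).num : ZMod L)
  let P : Set D := {x | x ∈ O ∧ x ≠ 0 ∧ L • x⁻¹ ∈ O}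
  choose rep hrep using fun c : code '' P => c.2
  haveI : Fintype (code '' P) := Fintype.ofFinite _
  set R₂ : ℝ := ∑ c : code '' P, ∑ i, ∑ j, |realRep b (rep c)⁻¹ i j|
  refine ⟨max 1 (n * (R₁ * R₂)), le_max_left _ _, fun g hg hdet => ?_⟩
  obtain ⟨z, hz0, hz⟩ := FA.Summary.minkowski_hlawka_converse
    (S := Set.univ.pi fun _ : Fin n => Set.Icc (-2 : ℝ) 2)
    (convex_pi fun i _ => convex_Icc _ _)
    (fun x hx i hi => ⟨neg_le_neg (hx i hi).2, (neg_le.1 (hx i hi).1)⟩)
    (by
      rw [MeasureTheory.volume_pi_pi]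
      simp only [Real.volume_Icc, Finset.prod_const, Finset.card_univ, Fintype.card_fin]
      rw [← ENNReal.ofReal_ofNat]
      rcases Nat.eq_zero_or_pos n with hn | hn
      · subst hn
        exact absurd (b.repr.injective (Subsingleton.elim (b.repr (1 : D)) (b.repr 0))) one_ne_zero
      · rw [← ENNReal.ofReal_pow (by norm_num), ← ENNReal.ofReal_pow (by norm_num)]
        exact (ENNReal.ofReal_lt_ofReal_iff (by positivity)).2
          (pow_lt_pow_left₀ (by norm_num) (by norm_num) hn.ne'))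
    g hdet
  set c : D := ∑ i, (z i : ℚ) • b i
  have hrc : ∀ i, b.repr c i = z i := fun i => congrFun (b.repr_sum_self _) i
  have hcO : c ∈ O := (hb c).2 fun i => ⟨z i, hrc i⟩
  have hc0 : c ≠ 0 := fun h => hz0 (funext fun i => by
    have := hrc i
    rw [h, map_zero, Finsupp.zero_apply] at this
    simpa using this.symm)
  set h := g * realRep b c
  have hvec : h *ᵥ oneVec b = g *ᵥ fun i => (z i : ℝ) := by
    show (g * realRep b c) *ᵥ oneVec b = _
    rw [← Matrix.mulVec_mulVec]; unfold oneVec; rw [realRep_mulVec, mul_one]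
    exact congrArg (g *ᵥ ·) (funext fun i => by rw [hrc]; simp)
  have hh : Small R₁ h := fun j k => by
    rw [show h = _ from eq_sum_of_mem b (mul_mem hg (realRep_mem b c)), Matrix.sum_apply]
    refine (Finset.abs_sum_le_sum_abs _ _).trans (Finset.sum_le_sum fun i _ => ?_)
    rw [Matrix.smul_apply, smul_eq_mul, abs_mul, hvec]
    refine (mul_le_mul_of_nonneg_right (abs_le.2 (hz i (Set.mem_univ i))) (abs_nonneg _)).trans ?_
    exact (Finset.single_le_sum (f := fun k => 2 * |realRep b (b i) j k|)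
      (fun _ _ => by positivity) (Finset.mem_univ k)).trans
      (Finset.single_le_sum (f := fun j => ∑ k, 2 * |realRep b (b i) j k|)
        (fun _ _ => Finset.sum_nonneg fun _ _ => by positivity) (Finset.mem_univ j))
  obtain ⟨A, hA⟩ := hb.exists_int hcO
  have hAd : (realRep b c).det = (A.det : ℝ) := by
    rw [det_realRep, ← hA, ← RingHom.mapMatrix_apply, ← RingHom.map_det]
    simp
  have hA0 : A.det ≠ 0 := fun h0 => det_ne_zero b hc0 (by rw [hAd, h0, Int.cast_zero])
  have hAL : A.det ∣ (L : ℤ) := Int.natAbs_dvd.1 (Int.natCast_dvd_natCast.2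
    (Nat.dvd_factorial (Int.natAbs_pos.2 hA0) (Nat.le_floor (by
      have := hh.abs_det_le
      rw [Matrix.det_mul, abs_mul, hdet, one_mul, hAd] at this
      rwa [Nat.cast_natAbs, Int.cast_abs]))))
  have hcP : c ∈ P := ⟨hcO, hc0, hb.nsmul_inv_mem hc0 hA hAL⟩
  set q : code '' P := ⟨code c, c, hcP, rfl⟩
  obtain ⟨⟨hyO, hy0, hyL⟩, hcode⟩ := hrep q
  obtain ⟨w, hwO, hw⟩ : ∃ w ∈ O, c - rep q = L • w := by
    choose y hy using (hb _).1 hyO
    have hmod : ∀ i, ∃ k : ℤ, z i - y i = (L : ℤ) * k := fun i => by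
      refine (ZMod.intCast_zmod_eq_zero_iff_dvd _ _).1 ?_
      have : code (rep q) i = code c i := congrFun hcode i
      simp only [code, hy, hrc, Rat.num_intCast] at this
      rw [Int.cast_sub, this, sub_self]
    choose k hk using hmod
    refine ⟨∑ i, (k i : ℚ) • b i, (hb _).2 fun i => ⟨k i, congrFun (b.repr_sum_self _) i⟩,
      b.ext_elem fun i => ?_⟩
    rw [map_sub, Finsupp.sub_apply, hrc, hy, map_nsmul, Finsupp.smul_apply, b.repr_sum_self,
      nsmul_eq_mul]
    exact_mod_cast hk i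
  obtain ⟨u, hu⟩ := exists_unit_mul hwO hw hc0 hy0 hcP.2.2 hyL
  refine ⟨u, ?_⟩
  have e : g * unitRep b u = h * realRep b (rep q)⁻¹ := by
    show g * realRep b _ = g * realRep b c * _
    rw [mul_assoc, ← map_mul, ← hu, mul_assoc, mul_inv_cancel₀ hy0, mul_one]
  rw [e]
  refine (hh.mul (R' := R₂) fun i j => ?_).mono (le_max_right _ _)
  exact (Finset.single_le_sum (f := fun j => |realRep b (rep q)⁻¹ i j|) (fun _ _ => abs_nonneg _)
    (Finset.mem_univ j)).trans ((Finset.single_le_sum
      (f := fun i => ∑ j, |realRep b (rep q)⁻¹ i j|) (fun _ _ => by positivity)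
      (Finset.mem_univ i)).trans (Finset.single_le_sum
        (f := fun q => ∑ i, ∑ j, |realRep b (rep q)⁻¹ i j|) (fun _ _ => by positivity)
        (Finset.mem_univ q)))

end FA.UnitsOrders

end
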