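import Fermat.Agent.JordanZassenhaus.Main
import Mathlib.LinearAlgebra.Matrix.NonsingularInverse
import Mathlib.Topology.Instances.Matrix
import Mathlib.Analysis.Normed.Field.Lemmas
import Mathlib.Topology.Connected.PathConnected
import Mathlib.RingTheory.Polynomial.UniqueFactorization
import Mathlib.LinearAlgebra.Matrix.Charpoly.Coeff

/-!
# The components of the invertible elements of a real algebra

A segment joins an invertible element to an involution, the spectral projection to the negative
eigenvalues being a polynomial in it. Conjugate involutions are joined, and in a semisimple algebra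
there are finitely many classes of idempotents; so there are finitely many components.
-/

set_option autoImplicit false
set_option linter.style.haveILetI false

noncomputable section

open Matrix Polynomial

namespace FA.UnitsOrders

variable {n : ℕ} {W : Subalgebra ℝ (Matrix (Fin n) (Fin n) ℝ)}

local notation "Mat" => Matrix (Fin n) (Fin n) ℝ

/-- The invertible elements. -/
def invSet (W : Subalgebra ℝ Mat) : Set Mat := {g | g ∈ W ∧ g.det ≠ 0}

theorem one_mem_invSet : (1 : Mat) ∈ invSet W := ⟨one_mem W, by simp⟩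

theorem mul_mem_invSet {g h : Mat} (hg : g ∈ invSet W) (hh : h ∈ invSet W) : g * h ∈ invSet W :=
  ⟨mul_mem hg.1 hh.1, by rw [Matrix.det_mul]; exact mul_ne_zero hg.2 hh.2⟩

theorem inv_mul_of_mem {g : Mat} (hg : g ∈ invSet W) : g⁻¹ * g = 1 :=
  Matrix.nonsing_inv_mul _ (isUnit_iff_ne_zero.2 hg.2)

theorem mul_inv_of_mem {g : Mat} (hg : g ∈ invSet W) : g * g⁻¹ = 1 :=
  Matrix.mul_nonsing_inv _ (isUnit_iff_ne_zero.2 hg.2)

theorem inv_mem_invSet {g : Mat} (hg : g ∈ invSet W) : g⁻¹ ∈ invSet W := by
  refine ⟨?_, (Matrix.isUnit_nonsing_inv_det _ (isUnit_iff_ne_zero.2 hg.2)).ne_zero⟩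
  let f : W →ₗ[ℝ] W := LinearMap.mulLeft ℝ ⟨g, hg.1⟩
  have hf : Function.Injective f := fun x y h => Subtype.ext (by
    have := congrArg (fun z : W => g⁻¹ * (z : Mat)) h
    simpa [f, ← Matrix.mul_assoc, inv_mul_of_mem hg] using this)
  obtain ⟨w, hw⟩ := LinearMap.injective_iff_surjective.1 hf 1
  rw [Matrix.inv_eq_right_inv (show g * (w : Mat) = 1 from congrArg Subtype.val hw)]
  exact w.2

theorem joinedIn_mul_left {a b c : Mat} (h : JoinedIn (invSet W) a b) (hc : c ∈ invSet W) :
    JoinedIn (invSet W) (c * a) (c * b) :=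
  ⟨h.somePath.map (continuous_const_mul c), fun t => mul_mem_invSet hc (h.somePath_mem t)⟩

theorem joinedIn_mul_right {a b c : Mat} (h : JoinedIn (invSet W) a b) (hc : c ∈ invSet W) :
    JoinedIn (invSet W) (a * c) (b * c) :=
  ⟨h.somePath.map (continuous_mul_const c), fun t => mul_mem_invSet (h.somePath_mem t) hc⟩

theorem aeval_mulVec {g : Mat} {v : Fin n → ℝ} {l : ℝ} (h : g *ᵥ v = l • v) (p : ℝ[X]) :
    aeval g p *ᵥ v = p.eval l • v := by
  induction p using Polynomial.induction_on' with
  | add p q hp hq => rw [map_add, Matrix.add_mulVec, hp, hq, eval_add, add_smul]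
  | monomial k c =>
    rw [aeval_monomial, eval_monomial, Algebra.algebraMap_eq_smul_one, smul_mul_assoc, one_mul,
      Matrix.smul_mulVec, mul_smul]
    congr 1
    induction k with
    | zero => simp
    | succ k ih => rw [pow_succ, ← Matrix.mulVec_mulVec, h, Matrix.mulVec_smul, ih, smul_smul,
        pow_succ, mul_comm]

/-- A polynomial without zero root splits into its negative roots and a coprime rest. -/
theorem exists_factor_neg {p : ℝ[X]} (hp : p ≠ 0) :
    ∃ a b : ℝ[X], p = a * b ∧ IsCoprime a b ∧ (∀ l, 0 ≤ l → a.eval l ≠ 0) ∧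
      ∀ l, l < 0 → b.eval l ≠ 0 := by
  classical
  set s := p.roots.filter (· < 0)
  obtain ⟨b, hb⟩ : (s.map fun r => X - C r).prod ∣ p :=
    (Multiset.prod_dvd_prod_of_le (Multiset.map_le_map (Multiset.filter_le _ _))).trans
      (prod_multiset_X_sub_C_dvd p)
  have hb0 : b ≠ 0 := fun h => hp (by rw [hb, h, mul_zero])
  have hneg : ∀ l, l < 0 → b.eval l ≠ 0 := fun l hl he => by
    have h := congrArg Polynomial.roots hb
    rw [roots_mul (by rwa [← hb]), roots_multiset_prod_X_sub_C] at h
    have h1 := congrArg (Multiset.count l) h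
    rw [Multiset.count_add, Multiset.count_filter_of_pos (p := (· < (0 : ℝ))) hl] at h1
    have : 0 < Multiset.count l b.roots := Multiset.count_pos.2 ((mem_roots hb0).2 he)
    omega
  have hs : ∀ r ∈ s, r < 0 := fun r hr => (Multiset.mem_filter.1 hr).2
  refine ⟨_, b, hb, ?_, fun l hl => ?_, hneg⟩
  · suffices H : ∀ m : Multiset ℝ, (∀ r ∈ m, r < 0) →
        IsCoprime (m.map fun r => X - C r).prod b from H s hs
    intro m
    induction m using Multiset.induction with
    | empty => exact fun _ => by simpa using isCoprime_one_left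
    | cons r m ih =>
      intro hm
      rw [Multiset.map_cons, Multiset.prod_cons]
      refine IsCoprime.mul_left ((irreducible_X_sub_C r).coprime_iff_not_dvd.2 fun h => ?_)
        (ih fun t ht => hm t (Multiset.mem_cons_of_mem ht))
      exact hneg r (hm r (Multiset.mem_cons_self r m)) (dvd_iff_isRoot.1 h)
  · rw [eval_multiset_prod]
    intro h
    rw [Multiset.map_map, Multiset.prod_eq_zero_iff, Multiset.mem_map] at h
    obtain ⟨r, hr, h⟩ := h
    rw [Function.comp_apply, eval_sub, eval_X, eval_C] at h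
    linarith [hs r hr]

/-- The involution of an idempotent. -/
def involution (e : Mat) : Mat := 1 - (2 : ℝ) • e

theorem involution_mul_self {e : Mat} (he : e * e = e) : involution e * involution e = 1 := by
  simp only [involution, sub_mul, mul_sub, one_mul, mul_one, smul_mul_assoc, mul_smul_comm, he]
  module

theorem involution_mem {e : Mat} (he : e * e = e) (hW : e ∈ W) : involution e ∈ invSet W := by
  refine ⟨sub_mem (one_mem W) (W.smul_mem hW 2), fun h => ?_⟩
  have := congrArg Matrix.det (involution_mul_self he)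
  rw [Matrix.det_mul, h, zero_mul, Matrix.det_one] at this
  exact zero_ne_one this

/-- **An invertible element is joined to an involution.** -/
theorem exists_joinedIn_involution {g : Mat} (hg : g ∈ invSet W) :
    ∃ e ∈ W, e * e = e ∧ JoinedIn (invSet W) g (involution e) := by
  obtain ⟨a, b, hab, ⟨u, v, huv⟩, ha, hb⟩ := exists_factor_neg g.charpoly_monic.ne_zero
  have hCH : aeval g (a * b) = 0 := by rw [← hab]; exact Matrix.aeval_self_charpoly g
  set e := aeval g (v * b)
  have h1e : 1 - e = aeval g (u * a) := by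
    rw [show e = aeval g (v * b) from rfl, ← map_one (aeval (R := ℝ) g), ← map_sub, ← huv,
      add_sub_cancel_right]
  have hee : e * (1 - e) = 0 := by
    rw [h1e, ← map_mul, show v * b * (u * a) = a * b * (v * u) by ring, map_mul, hCH, zero_mul]
  have hidem : e * e = e := by rwa [mul_sub, mul_one, sub_eq_zero, eq_comm] at hee
  have heW : e ∈ W := by
    rw [show e = aeval g (v * b) from rfl, show g = W.val ⟨g, hg.1⟩ from rfl, aeval_algHom_apply]
    exact Subtype.mem _
  have hge : g * e = e * g := by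
    conv_lhs => arg 1; rw [← aeval_X (R := ℝ) g]
    conv_rhs => arg 2; rw [← aeval_X (R := ℝ) g]
    rw [← map_mul, ← map_mul, mul_comm]
  have hzero : ∀ x : Mat, x * e = e * x → ∀ w, x *ᵥ w = 0 →
      x *ᵥ (e *ᵥ w) = 0 ∧ x *ᵥ ((1 - e) *ᵥ w) = 0 := fun x hx w hw => by
    have h : x *ᵥ (e *ᵥ w) = 0 := by
      rw [Matrix.mulVec_mulVec, hx, ← Matrix.mulVec_mulVec, hw, Matrix.mulVec_zero]
    exact ⟨h, by rw [Matrix.sub_mulVec, Matrix.one_mulVec, Matrix.mulVec_sub, hw, h, sub_zero]⟩
  refine ⟨e, heW, hidem, JoinedIn.ofLine (f := fun t : ℝ => (1 - t) • g + t • involution e)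
    (by fun_prop) (by simp) (by simp) ?_⟩
  rintro _ ⟨t, ⟨ht0, ht1⟩, rfl⟩
  refine ⟨add_mem (W.smul_mem hg.1 _) (W.smul_mem (involution_mem hidem heW).1 _), fun hdet => ?_⟩
  obtain ⟨w, hw0, hw⟩ := Matrix.exists_mulVec_eq_zero_iff.2 hdet
  obtain ⟨hw1, hw2⟩ := hzero _ (by
    simp only [involution, add_mul, mul_add, smul_mul_assoc, mul_smul_comm, sub_mul, mul_sub,
      one_mul, mul_one, hge]) w hw
  simp only [Matrix.add_mulVec, Matrix.smul_mulVec] at hw1 hw2
  have hj1 : involution e *ᵥ (e *ᵥ w) = -(e *ᵥ w) := by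
    rw [Matrix.mulVec_mulVec, involution, sub_mul, smul_mul_assoc, hidem, one_mul,
      ← Matrix.neg_mulVec]
    congr 1
    module
  have hj2 : involution e *ᵥ ((1 - e) *ᵥ w) = (1 - e) *ᵥ w := by
    rw [Matrix.mulVec_mulVec, involution, sub_mul, smul_mul_assoc, hee, one_mul, smul_zero,
      sub_zero]
  rw [hj1, smul_neg, add_neg_eq_zero] at hw1
  rw [hj2, ← eq_neg_iff_add_eq_zero] at hw2
  refine hw0 ?_
  rcases eq_or_lt_of_le ht1 with rfl | ht
  · simp only [sub_self, zero_smul, one_smul] at hw1 hw2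
    have h2 : (1 - e) *ᵥ w = 0 := neg_eq_zero.1 hw2.symm
    rw [Matrix.sub_mulVec, Matrix.one_mulVec, ← hw1, sub_zero] at h2
    exact h2
  set x := t / (1 - t)
  have hx : 0 ≤ x := div_nonneg ht0 (by linarith)
  have hne : (1 - t) ≠ 0 := by linarith
  have e1 : e *ᵥ w = 0 := by
    have h : g *ᵥ (e *ᵥ w) = x • (e *ᵥ w) := by
      rw [show x = (1 - t)⁻¹ * t from div_eq_inv_mul _ _, mul_smul, ← hw1, smul_smul,
        inv_mul_cancel₀ hne, one_smul]
    have h' := aeval_mulVec h a
    rw [Matrix.mulVec_mulVec, ← map_mul, show a * (v * b) = a * b * v by ring, map_mul, hCH,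
      zero_mul, Matrix.zero_mulVec] at h'
    exact (smul_eq_zero.1 h'.symm).resolve_left (ha x hx)
  have e2 : (1 - e) *ᵥ w = 0 := by
    rcases eq_or_lt_of_le ht0 with rfl | htpos
    · simp only [sub_zero, one_smul, zero_smul, neg_zero] at hw2
      exact Matrix.eq_zero_of_mulVec_eq_zero hg.2 hw2
    have h : g *ᵥ ((1 - e) *ᵥ w) = (-x) • ((1 - e) *ᵥ w) := by
      rw [show -x = (1 - t)⁻¹ * -t by rw [mul_neg, ← div_eq_inv_mul], mul_smul, neg_smul, ← hw2,
        smul_smul, inv_mul_cancel₀ hne, one_smul]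
    have h' := aeval_mulVec h b
    rw [h1e, Matrix.mulVec_mulVec, ← map_mul, show b * (u * a) = a * b * u by ring, map_mul, hCH,
      zero_mul, Matrix.zero_mulVec] at h'
    rw [← h1e] at h'
    exact (smul_eq_zero.1 h'.symm).resolve_left
      (hb _ (neg_lt_zero.2 (div_pos htpos (by linarith))))
  rw [Matrix.sub_mulVec, Matrix.one_mulVec, e1, sub_zero] at e2
  exact e2

/-- A square is joined to one. -/
theorem joinedIn_sq {g : Mat} (hg : g ∈ invSet W) : JoinedIn (invSet W) (g * g) 1 := by
  obtain ⟨e, he, hidem, h⟩ := exists_joinedIn_involution hg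
  have := (joinedIn_mul_left h hg).trans (joinedIn_mul_right h (involution_mem hidem he))
  rwa [involution_mul_self hidem] at this

/-- Conjugate involutions are joined. -/
theorem joinedIn_conj {u y : Mat} (hu : u ∈ invSet W) (hy : y ∈ invSet W) (hy1 : y * y = 1) :
    JoinedIn (invSet W) (u * y * u⁻¹) y := by
  have hu' := inv_mem_invSet hu
  have hz := mul_mem_invSet hu' hy
  have h1 : JoinedIn (invSet W) ((u * u) * ((u⁻¹ * y) * (u⁻¹ * y))) 1 := by
    have h := (joinedIn_mul_right (joinedIn_sq hu) (mul_mem_invSet hz hz))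
    rw [one_mul] at h
    exact h.trans (joinedIn_sq hz)
  have h2 := joinedIn_mul_right h1 hy
  rwa [show (u * u) * ((u⁻¹ * y) * (u⁻¹ * y)) * y = u * y * u⁻¹ by
    simp only [mul_assoc, hy1, mul_one]
    rw [← mul_assoc u u⁻¹, mul_inv_of_mem hu, one_mul], one_mul] at h2

/-- Isomorphic pairs of summands give conjugate idempotents. -/
theorem exists_conj_of_equiv {S : Type*} [Ring S] {e f : S} (he : e * e = e) (hf : f * f = f)
    (φ : Submodule.span S {e} ≃ₗ[S] Submodule.span S {f})
    (ψ : Submodule.span S {1 - e} ≃ₗ[S] Submodule.span S {1 - f}) :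
    ∃ u u' : S, u * u' = 1 ∧ e * u = u * f := by
  obtain ⟨a, ha⟩ : ∃ a, φ ⟨e, Submodule.mem_span_singleton_self e⟩ = a := ⟨_, rfl⟩
  obtain ⟨c, hc⟩ : ∃ c, ψ ⟨1 - e, Submodule.mem_span_singleton_self _⟩ = c := ⟨_, rfl⟩
  obtain ⟨a', ha'⟩ : ∃ a', φ.symm ⟨f, Submodule.mem_span_singleton_self f⟩ = a' := ⟨_, rfl⟩
  obtain ⟨c', hc'⟩ : ∃ c', ψ.symm ⟨1 - f, Submodule.mem_span_singleton_self _⟩ = c' := ⟨_, rfl⟩
  have he1 : (1 - e) * (1 - e) = 1 - e := by rw [sub_mul, one_mul, mul_sub, mul_one, he]; abel
  have hf1 : (1 - f) * (1 - f) = 1 - f := by rw [sub_mul, one_mul, mul_sub, mul_one, hf]; abel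
  have hrmul : ∀ {e : S}, e * e = e → ∀ x ∈ Submodule.span S {e}, x * e = x := fun he x hx => by
    obtain ⟨r, rfl⟩ := Submodule.mem_span_singleton.1 hx
    rw [smul_eq_mul, mul_assoc, he]
  have key : ∀ {e f : S}, e * e = e → ∀ (φ : Submodule.span S {e} ≃ₗ[S] Submodule.span S {f})
      (a : Submodule.span S {f}), φ ⟨e, Submodule.mem_span_singleton_self e⟩ = a →
      e * (a : S) = a := fun {e f} he φ a ha => by
    have h := φ.map_smul e ⟨e, Submodule.mem_span_singleton_self e⟩
    rw [show e • (⟨e, Submodule.mem_span_singleton_self e⟩ : Submodule.span S {e}) =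
      ⟨e, Submodule.mem_span_singleton_self e⟩ from Subtype.ext he, ha] at h
    exact (congrArg Subtype.val h).symm
  have hinv : ∀ {e f : S}, f * f = f → ∀ (φ : Submodule.span S {e} ≃ₗ[S] Submodule.span S {f})
      (a : Submodule.span S {f}) (a' : Submodule.span S {e}),
      φ ⟨e, Submodule.mem_span_singleton_self e⟩ = a →
      φ.symm ⟨f, Submodule.mem_span_singleton_self f⟩ = a' → (a : S) * a' = e :=
    fun {e f} hf φ a a' ha ha' => by
    have h := φ.symm.map_smul (a : S) ⟨f, Submodule.mem_span_singleton_self f⟩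
    rw [show (a : S) • (⟨f, Submodule.mem_span_singleton_self f⟩ : Submodule.span S {f}) = a from
      Subtype.ext (hrmul hf _ a.2), ha', φ.symm_apply_eq.2 ha.symm] at h
    exact (congrArg Subtype.val h).symm
  have h1 : (a : S) * (1 - f) = 0 := by rw [mul_sub, mul_one, hrmul hf _ a.2, sub_self]
  have h2 : (c : S) * f = 0 := by
    rw [← sub_eq_self.1 ((mul_one_sub _ _).symm.trans (hrmul hf1 _ c.2))]
  have k1 := key hf φ.symm a' ha'
  have k2 := key hf1 ψ.symm c' hc'
  refine ⟨a + c, a' + c', ?_, ?_⟩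
  · rw [add_mul, mul_add, mul_add, hinv hf φ a a' ha ha', hinv hf1 ψ c c' hc hc',
      show (a : S) * c' = 0 by rw [← k2, ← mul_assoc, h1, zero_mul],
      show (c : S) * a' = 0 by rw [← k1, ← mul_assoc, h2, zero_mul]]
    abel
  · have hzero : e * (c : S) = 0 := by
      rw [← key he1 ψ c hc, ← mul_assoc, mul_sub, mul_one, he, sub_self, zero_mul]
    rw [mul_add, add_mul, key he φ a ha, hzero, hrmul hf _ a.2, h2]

/-- **Finitely many components.** -/
theorem exists_finite_reps [IsSemisimpleRing W] :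
    ∃ Y : Finset Mat, ↑Y ⊆ invSet W ∧ ∀ g ∈ invSet W, ∃ y ∈ Y, JoinedIn (invSet W) g y := by
  classical
  obtain ⟨F, hF⟩ := FA.JordanZassenhaus.exists_submodule_list.{0} (A := W) (k := ℝ)
    (Module.finrank ℝ W)
  have hty : ∀ e : W, ∃ S ∈ F, Nonempty (Submodule.span W {e} ≃ₗ[W] S) := fun e =>
    hF (Submodule.span W {e}) (Submodule.finrank_le ((Submodule.span W {e}).restrictScalars ℝ))
  choose ty htyF hty using hty
  let code : W → Submodule W _ × Submodule W _ := fun e => (ty e, ty (1 - e))
  let P : Set W := {e | e * e = e}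
  have hfin : (code '' P).Finite := (F ×ˢ F).finite_toSet.subset (by
    rintro _ ⟨e, -, rfl⟩
    exact Finset.mem_product.2 ⟨htyF _, htyF _⟩)
  choose rep hrep using fun q : code '' P => q.2
  haveI := hfin.fintype
  refine ⟨Finset.univ.image fun q => involution (rep q : Mat), fun x hx => ?_, fun g hg => ?_⟩
  · obtain ⟨q, -, rfl⟩ := Finset.mem_image.1 hx
    exact involution_mem (congrArg Subtype.val (hrep q).1) (rep q).2
  obtain ⟨e, heW, hidem, hj⟩ := exists_joinedIn_involution hg
  set e' : W := ⟨e, heW⟩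
  set q : code '' P := ⟨code e', e', Subtype.ext hidem, rfl⟩
  refine ⟨_, Finset.mem_image_of_mem _ (Finset.mem_univ q), hj.trans ?_⟩
  obtain ⟨hp, hc⟩ := hrep q
  have hc' : code (rep q) = code e' := hc
  simp only [code, Prod.mk.injEq] at hc'
  obtain ⟨u, u', huu, hconj⟩ := exists_conj_of_equiv (Subtype.ext hidem : e' * e' = e') hp
    ((hty e').some.trans ((LinearEquiv.ofEq _ _ hc'.1.symm).trans (hty (rep q)).some.symm))
    ((hty (1 - e')).some.trans ((LinearEquiv.ofEq _ _ hc'.2.symm).trans
      (hty (1 - rep q)).some.symm))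
  have hu1 : (u : Mat) * u' = 1 := congrArg Subtype.val huu
  have hu : (u : Mat) ∈ invSet W := ⟨u.2, fun h => by
    have := congrArg Matrix.det hu1
    rw [Matrix.det_mul, h, zero_mul, Matrix.det_one] at this
    exact zero_ne_one this⟩
  have he : e * (u : Mat) = u * (rep q : Mat) := congrArg Subtype.val hconj
  have hy := involution_mem (congrArg Subtype.val hp : (rep q : Mat) * rep q = rep q) (rep q).2
  have h := joinedIn_conj hu hy (involution_mul_self (congrArg Subtype.val hp))
  rwa [show (u : Mat) * involution (rep q : Mat) * (u : Mat)⁻¹ = involution e by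
    rw [involution, mul_sub, sub_mul, mul_one, mul_inv_of_mem hu, mul_smul_comm, ← he,
      smul_mul_assoc, mul_assoc, mul_inv_of_mem hu, mul_one, involution]] at h

end FA.UnitsOrders

end
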