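import Fermat.Agent.UnitsOrders.Basic
import Fermat.Agent.UnitsOrders.Components
import Mathlib.Analysis.SpecialFunctions.Pow.Continuity
import Mathlib.RingTheory.Artinian.Module
import Mathlib.GroupTheory.Finiteness
import Mathlib.Topology.LocallyConstant.Basic
import Mathlib.Topology.UnitInterval

/-!
# Generators of the units of an order

The real algebra is semisimple, the trace form being nondegenerate, so its invertible elements have
finitely many components. Along a path a bounded translating unit changes by small units only, so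
these and one unit in each component generate.
-/

set_option autoImplicit false
set_option linter.style.haveILetI false

noncomputable section

open Module Matrix Filter Topology

namespace FA.UnitsOrders

variable {D : Type*} [DivisionRing D] [Algebra ℚ D] {O : Subring D} {n : ℕ}
  {b : Basis (Fin n) ℚ D}

local notation "Mat" => Matrix (Fin n) (Fin n) ℝ

theorem ne_zero_dim (b : Basis (Fin n) ℚ D) : n ≠ 0 := by
  rintro rfl
  exact one_ne_zero (b.repr.injective (Subsingleton.elim (b.repr (1 : D)) (b.repr 0)))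

/-- **The real algebra is semisimple.** -/
theorem isSemisimpleRing_realAlg (b : Basis (Fin n) ℚ D) : IsSemisimpleRing (realAlg b) := by
  classical
  haveI : IsArtinianRing (realAlg b) := IsArtinianRing.of_finite ℝ (realAlg b)
  set T : Matrix (Fin n) (Fin n) ℚ :=
    Matrix.of fun i j => (Algebra.leftMulMatrix b (b i * b j)).trace
  have hT : T.det ≠ 0 := fun h => by
    obtain ⟨v, hv0, hv⟩ := Matrix.exists_vecMul_eq_zero_iff.2 h
    set d := ∑ i, v i • b i
    have hd : d ≠ 0 := fun h0 =>
      hv0 (funext (Fintype.linearIndependent_iff.1 b.linearIndependent v h0))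
    let τ : D →ₗ[ℚ] ℚ := (Matrix.traceLinearMap (Fin n) ℚ ℚ) ∘ₗ
      (Algebra.leftMulMatrix b).toLinearMap ∘ₗ LinearMap.mulLeft ℚ d
    have hτ : τ = 0 := b.ext fun j => by
      show (Algebra.leftMulMatrix b (d * b j)).trace = 0
      rw [Finset.sum_mul, map_sum, Matrix.trace_sum]
      refine Eq.trans (Finset.sum_congr rfl fun i _ => ?_) (congrFun hv j)
      rw [smul_mul_assoc, map_smul, Matrix.trace_smul, smul_eq_mul]
      rfl
    have h1 : (Algebra.leftMulMatrix b (d * d⁻¹)).trace = 0 := LinearMap.congr_fun hτ d⁻¹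
    rw [mul_inv_cancel₀ hd, map_one, Matrix.trace_one, Fintype.card_fin, Nat.cast_eq_zero] at h1
    exact ne_zero_dim b h1
  refine IsArtinianRing.isSemisimpleRing_iff_jacobson.2 ((Submodule.eq_bot_iff _).2 fun x hx => ?_)
  obtain ⟨k, hk⟩ := IsSemiprimaryRing.isNilpotent (R := realAlg b)
  have htr : ∀ j, ((x : Mat) * realRep b (b j)).trace = 0 := fun j => by
    have hy : x * ⟨_, realRep_mem b (b j)⟩ ∈ Ring.jacobson (realAlg b) :=
      Ideal.mul_mem_right _ _ hx
    have h := Ideal.pow_mem_pow hy k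
    rw [hk] at h
    exact (Matrix.isNilpotent_trace_of_isNilpotent
      ⟨k, congrArg Subtype.val (Ideal.mem_bot.1 h)⟩).eq_zero
  have hc : ((x : Mat) *ᵥ oneVec b) ᵥ* T.map (algebraMap ℚ ℝ) = 0 := funext fun j => by
    rw [Pi.zero_apply, ← htr j]
    conv_rhs => rw [eq_sum_of_mem b x.2, Finset.sum_mul, Matrix.trace_sum]
    simp only [Matrix.vecMul, dotProduct]
    refine Finset.sum_congr rfl fun i _ => ?_
    rw [smul_mul_assoc, ← map_mul, Matrix.trace_smul, smul_eq_mul]
    congr 1
    show (algebraMap ℚ ℝ) (Algebra.leftMulMatrix b (b i * b j)).trace = _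
    rw [AddMonoidHom.map_trace (algebraMap ℚ ℝ)]
    rfl
  have h0 := Matrix.eq_zero_of_vecMul_eq_zero (by
    rw [← RingHom.mapMatrix_apply, ← RingHom.map_det]
    exact (map_ne_zero _).2 hT) hc
  refine Subtype.ext ?_
  rw [eq_sum_of_mem b x.2, h0]
  simp

theorem unitRep_inv (b : Basis (Fin n) ℚ D) (u : Oˣ) : unitRep b u⁻¹ = (unitRep b u)⁻¹ :=
  (Matrix.inv_eq_right_inv (by rw [← unitRep_mul, mul_inv_cancel, unitRep_one])).symm

/-- There are finitely many units of bounded size. -/
theorem IsIntBasis.finite_small_units (hb : IsIntBasis O b) (R : ℝ) :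
    {u : Oˣ | Small R (unitRep b u)}.Finite := by
  classical
  choose z hz using fun u : Oˣ => (hb _).1 (u : O).2
  set N : ℕ := ⌈∑ j, R * |oneVec b j|⌉₊
  refine Set.Finite.of_finite_image (f := z) ((Set.Finite.pi
    (t := fun _ => Set.Icc (-(N : ℤ)) N) fun _ => Set.finite_Icc _ _).subset ?_)
    fun u _ v _ h => Units.ext (Subtype.ext (b.ext_elem fun i => by rw [hz, hz, h]))
  rintro _ ⟨u, hu, rfl⟩ i -
  have h : |((z u i : ℤ) : ℝ)| ≤ N := by
    have e : (unitRep b u *ᵥ oneVec b) i = ((z u i : ℤ) : ℝ) := by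
      unfold unitRep oneVec
      rw [realRep_mulVec, mul_one]
      simp [hz]
    rw [← e]
    refine le_trans ?_ (Nat.le_ceil (R := ℝ) _)
    show |∑ j, unitRep b u i j * oneVec b j| ≤ _
    refine (Finset.abs_sum_le_sum_abs _ _).trans (Finset.sum_le_sum fun j _ => ?_)
    rw [abs_mul]
    exact mul_le_mul_of_nonneg_right (hu i j) (abs_nonneg _)
  exact abs_le.1 (by exact_mod_cast h)

/-- Scaled to determinant `±1`. -/
def normalise (g : Mat) : Mat := (|g.det| ^ ((n : ℝ)⁻¹))⁻¹ • g

theorem normalise_of_abs_det {g : Mat} (h : |g.det| = 1) : normalise g = g := by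
  rw [normalise, h, Real.one_rpow, inv_one, one_smul]

theorem abs_det_normalise (hn : n ≠ 0) {g : Mat} (h : g.det ≠ 0) : |(normalise g).det| = 1 := by
  rw [normalise, Matrix.det_smul, Fintype.card_fin, abs_mul, inv_pow,
    Real.rpow_inv_natCast_pow (abs_nonneg _) hn, abs_inv, abs_abs,
    inv_mul_cancel₀ (abs_ne_zero.2 h)]

/-- **The units are finitely generated.** -/
theorem IsIntBasis.fg_units (hb : IsIntBasis O b) : Group.FG Oˣ := by
  classical
  have hn := ne_zero_dim b
  haveI := isSemisimpleRing_realAlg b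
  obtain ⟨R, hR, hbd⟩ := exists_unit_small hb
  set R' : ℝ := n * ((n.factorial * R ^ n) * (n * (2 * R)))
  set S : Set Oˣ := {u | Small (max R R') (unitRep b u)}
  set H : Subgroup Oˣ := Subgroup.closure S
  -- neighbouring elements have translating units differing by a small one
  have hstep : ∀ g g' : Mat, |g.det| = 1 → |g'.det| = 1 → ∀ σ σ' : Oˣ,
      Small R (g * unitRep b σ) → Small R (g' * unitRep b σ') → Small 2 (g * g'⁻¹) →
      σ⁻¹ * σ' ∈ H := by
    intro g g' hg hg' σ σ' h h' h2
    refine Subgroup.subset_closure (Small.mono ?_ (le_max_right R R'))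
    have hd : |(g * unitRep b σ).det| = 1 := by
      rw [Matrix.det_mul, abs_mul, hg, hb.abs_det_unit, one_mul]
    have e : unitRep b (σ⁻¹ * σ') =
        (g * unitRep b σ)⁻¹ * ((g * g'⁻¹) * (g' * unitRep b σ')) := by
      have h1 : IsUnit g.det := isUnit_iff_ne_zero.2 (by intro h; simp [h] at hg)
      have h1' : IsUnit g'.det := isUnit_iff_ne_zero.2 (by intro h; simp [h] at hg')
      rw [unitRep_mul, unitRep_inv, Matrix.mul_inv_rev, Matrix.mul_assoc g,
        ← Matrix.mul_assoc g'⁻¹, Matrix.nonsing_inv_mul _ h1', Matrix.one_mul,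
        Matrix.mul_assoc _ g⁻¹, ← Matrix.mul_assoc g⁻¹, Matrix.nonsing_inv_mul _ h1, Matrix.one_mul]
    rw [e]
    exact (h.inv hR hd).mul (h2.mul h')
  -- units joined to one lie in `H`
  have hconn : ∀ u : Oˣ, JoinedIn (invSet (realAlg b)) 1 (unitRep b u) → u ∈ H := by
    intro u hu
    set f : unitInterval → Mat := fun t => normalise (hu.somePath t)
    have hmem := hu.somePath_mem
    have hf : Continuous f :=
      ((Continuous.rpow_const hu.somePath.continuous.matrix_det.abs fun _ =>
        Or.inr (by positivity)).inv₀ fun t =>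
          (Real.rpow_pos_of_pos (abs_pos.2 (hmem t).2) _).ne').smul hu.somePath.continuous
    have hdet : ∀ t, |(f t).det| = 1 := fun t => abs_det_normalise hn (hmem t).2
    have hW : ∀ t, f t ∈ realAlg b := fun t => (realAlg b).smul_mem (hmem t).1 _
    let P : unitInterval → Prop := fun t => ∃ σ ∈ H, Small R (f t * unitRep b σ)
    have hloc : IsLocallyConstant P := IsLocallyConstant.iff_eventually_eq P |>.2 fun t₀ => by
      have hc : Continuous fun t => f t₀ * ((f t).det • (f t).adjugate) :=
        continuous_const.matrix_mul (hf.matrix_det.smul hf.matrix_adjugate)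
      have hinv : ∀ t, (f t)⁻¹ = (f t).det • (f t).adjugate := fun t => by
        rw [Matrix.inv_def, Ring.inverse_eq_inv']
        congr 1
        rcases (abs_eq zero_le_one).1 (hdet t) with h | h <;> simp [h]
      have hev : ∀ᶠ t in 𝓝 t₀, Small 2 (f t₀ * (f t)⁻¹) := by
        simp only [Small, hinv, eventually_all]
        intro i j
        refine (((continuous_apply j).comp ((continuous_apply i).comp hc)).abs.tendsto
          t₀).eventually (ge_mem_nhds ?_)
        show |(f t₀ * ((f t₀).det • (f t₀).adjugate)) i j| < 2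
        rw [← hinv, Matrix.mul_nonsing_inv _ (isUnit_iff_ne_zero.2 fun h => by
          have := hdet t₀; rw [h, abs_zero] at this; exact zero_ne_one this), Matrix.one_apply]
        split_ifs <;> norm_num
      refine hev.mono fun t ht => propext ⟨?_, ?_⟩
      · rintro ⟨σ, hσ, h⟩
        obtain ⟨σ', h'⟩ := hbd _ (hW t₀) (hdet t₀)
        refine ⟨σ', ?_, h'⟩
        have := H.mul_mem hσ (H.inv_mem (hstep _ _ (hdet t₀) (hdet t) σ' σ h' h ht))
        simpa using this
      · rintro ⟨σ, hσ, h⟩
        obtain ⟨σ', h'⟩ := hbd _ (hW t) (hdet t)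
        refine ⟨σ', ?_, h'⟩
        have := H.mul_mem hσ (hstep _ _ (hdet t₀) (hdet t) σ σ' h h' ht)
        simpa using this
    have h0 : P 0 := ⟨1, H.one_mem, by
      simp only [f, Path.source, unitRep_one, mul_one, normalise_of_abs_det
        (show |(1 : Mat).det| = 1 by simp)]
      intro i j
      rw [Matrix.one_apply]
      split_ifs <;> simp <;> linarith⟩
    obtain ⟨σ, hσ, h⟩ : P 1 := (hloc.apply_eq_of_preconnectedSpace 0 1) ▸ h0
    simp only [f, Path.target, normalise_of_abs_det (hb.abs_det_unit u), ← unitRep_mul] at h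
    have huσ : u * σ ∈ H := Subgroup.subset_closure (Small.mono h (le_max_left _ _))
    simpa using H.mul_mem huσ (H.inv_mem hσ)
  -- one unit in each component
  obtain ⟨Y, -, hY⟩ := exists_finite_reps (W := realAlg b)
  have hG : ∀ u : Oˣ, unitRep b u ∈ invSet (realAlg b) := fun u =>
    ⟨unitRep_mem b u, fun h => by
      have := hb.abs_det_unit u
      rw [h, abs_zero] at this
      exact zero_ne_one this⟩
  choose y hyY hy using fun u : Oˣ => hY _ (hG u)
  let P : Set Mat := Set.range y
  choose rep hrep using fun q : P => q.2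
  haveI := ((Y.finite_toSet).subset (Set.range_subset_iff.2 hyY) : P.Finite).fintype
  refine Group.fg_iff.2 ⟨S ∪ Set.range rep, eq_top_iff.2 fun u _ => ?_,
    (hb.finite_small_units _).union (Set.finite_range _)⟩
  set v := rep ⟨y u, u, rfl⟩
  have hv : y v = y u := hrep ⟨y u, u, rfl⟩
  have hj : JoinedIn (invSet (realAlg b)) (unitRep b v) (unitRep b u) :=
    (hy v).trans (hv ▸ (hy u).symm)
  have h1 := joinedIn_mul_left hj (hG v⁻¹)
  rw [← unitRep_mul, ← unitRep_mul, inv_mul_cancel, unitRep_one] at h1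
  have h2 : v⁻¹ * u ∈ Subgroup.closure (S ∪ Set.range rep) :=
    Subgroup.closure_mono Set.subset_union_left (hconn _ h1)
  have h3 : v ∈ Subgroup.closure (S ∪ Set.range rep) :=
    Subgroup.subset_closure (Or.inr ⟨_, rfl⟩)
  simpa using Subgroup.mul_mem _ h3 h2

/-- **Hey's theorem**: the elements of determinant `±1` are a compact set times units. -/
theorem IsIntBasis.exists_isCompact (hb : IsIntBasis O b) :
    ∃ K : Set Mat, IsCompact K ∧ (∀ h ∈ K, h ∈ realAlg b ∧ |h.det| = 1) ∧
      ∀ g ∈ realAlg b, |g.det| = 1 → ∃ u : Oˣ, g * unitRep b u ∈ K := by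
  obtain ⟨R, -, hbd⟩ := exists_unit_small hb
  refine ⟨{h | h ∈ realAlg b ∧ |h.det| = 1 ∧ Small R h}, ?_, fun h hh => ⟨hh.1, hh.2.1⟩,
    fun g hg hd => ?_⟩
  · refine (isCompact_univ_pi fun _ => isCompact_univ_pi fun _ =>
      isCompact_Icc (a := -R) (b := R)).of_isClosed_subset ?_
      fun h hh i _ j _ => abs_le.1 (hh.2.2 i j)
    refine (isClosed_realAlg b).inter (IsClosed.inter
      (isClosed_eq continuous_id.matrix_det.abs continuous_const) ?_)
    have e : {h : Mat | Small R h} = ⋂ i, ⋂ j, {h : Mat | |h i j| ≤ R} := by ext; simp [Small]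
    show IsClosed {h : Mat | Small R h}
    rw [e]
    exact isClosed_iInter fun i => isClosed_iInter fun j => isClosed_le
      ((continuous_apply j).comp (continuous_apply i)).abs continuous_const
  · obtain ⟨u, hu⟩ := hbd g hg hd
    exact ⟨u, mul_mem hg (unitRep_mem b u), by
      rw [Matrix.det_mul, abs_mul, hd, hb.abs_det_unit, one_mul], hu⟩

/-- A change of basis conjugates the representation. -/
theorem realRep_change (b b' : Basis (Fin n) ℚ D) (x : D) :
    realRep b' x = (b'.toMatrix b).map (algebraMap ℚ ℝ) * realRep b x *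
      (b.toMatrix b').map (algebraMap ℚ ℝ) := by
  show (Algebra.leftMulMatrix b' x).map (algebraMap ℚ ℝ) =
    _ * (Algebra.leftMulMatrix b x).map (algebraMap ℚ ℝ) * _
  rw [← Matrix.map_mul, ← Matrix.map_mul, Algebra.leftMulMatrix_apply,
    Algebra.leftMulMatrix_apply, basis_toMatrix_mul_linearMap_toMatrix_mul_basis_toMatrix]

/-- **Hey's theorem** for any basis. -/
theorem exists_isCompact_of_basis {m : ℕ} (b₀ : Basis (Fin m) ℚ D) (hb : IsIntBasis O b₀)
    (b : Basis (Fin n) ℚ D) :
    ∃ K : Set Mat, IsCompact K ∧ (∀ h ∈ K, h ∈ realAlg b ∧ |h.det| = 1) ∧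
      ∀ g ∈ realAlg b, |g.det| = 1 → ∃ u : Oˣ, g * unitRep b u ∈ K := by
  obtain rfl : n = m := by simpa using Fintype.card_congr (b.indexEquiv b₀)
  obtain ⟨K, hK, hKW, hbd⟩ := hb.exists_isCompact
  set P : Mat := (b.toMatrix b₀).map (algebraMap ℚ ℝ)
  set Q : Mat := (b₀.toMatrix b).map (algebraMap ℚ ℝ)
  have hPQ : P * Q = 1 := by
    rw [← Matrix.map_mul, Basis.toMatrix_mul_toMatrix_flip,
      Matrix.map_one _ (map_zero _) (map_one _)]
  have hQP : Q * P = 1 := mul_eq_one_comm.1 hPQ
  have hdet : ∀ M : Mat, (P * M * Q).det = M.det := fun M => by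
    rw [Matrix.det_mul, Matrix.det_mul, mul_right_comm, ← Matrix.det_mul, hPQ, Matrix.det_one,
      one_mul]
  have hmem : ∀ (c c' : Basis (Fin n) ℚ D) (M : Mat), M ∈ realAlg c →
      (c'.toMatrix c).map (algebraMap ℚ ℝ) * M * (c.toMatrix c').map (algebraMap ℚ ℝ) ∈
        realAlg c' := by
    intro c c' M hM
    change M ∈ (realAlg c).toSubmodule at hM
    rw [toSubmodule_realAlg] at hM
    induction hM using Submodule.span_induction with
    | mem _ h => obtain ⟨x, rfl⟩ := h; rw [← realRep_change c c']; exact realRep_mem c' x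
    | zero => simp
    | add u v _ _ hu hv => rw [mul_add, add_mul]; exact add_mem hu hv
    | smul r u _ hu => rw [mul_smul_comm, smul_mul_assoc]; exact Subalgebra.smul_mem _ hu r
  refine ⟨(fun M => P * M * Q) '' K, hK.image (by fun_prop), ?_, fun g hg hd => ?_⟩
  · rintro _ ⟨M, hM, rfl⟩
    exact ⟨hmem _ _ _ (hKW M hM).1, by rw [hdet]; exact (hKW M hM).2⟩
  have hg' : Q * g * P ∈ realAlg b₀ := hmem _ _ _ hg
  obtain ⟨u, hu⟩ := hbd _ hg' (by
    rw [← hdet, ← mul_assoc, ← mul_assoc, hPQ, one_mul, mul_assoc, hPQ, mul_one, hd])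
  refine ⟨u, Q * g * P * unitRep b₀ u, hu, ?_⟩
  show P * (Q * g * P * unitRep b₀ u) * Q = g * unitRep b u
  rw [unitRep, unitRep, realRep_change b₀ b]
  simp only [← mul_assoc]
  rw [hPQ, one_mul]

end FA.UnitsOrders

end
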